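/-
GATE-R / S17 node GR-W-K2-AUXDATA (helper68; second seat of helper52's K2 node, helper20 4570).

Abstract frame of GATE-H's vocabulary (`GH/Vocab.lean`): `R : RedData K F k Ft`,
`H : LSpaceHyp R g c`, place reduction `rOf H`.

* (S) SEMICONTINUITY: `redSpace R D ≤ L(r_* D)` for EVERY divisor `D` (no degree bound), hence
  `l(D) ≤ l(r_* D)` for effective `D`; corollary `finrank_D0_eq_one`: the base divisor `D0 = Σ P_i`
  of a chart is non-special (`l = 1`) because its reduction is.
* (P) `exists_pfold`: for a chart `𝔠` with `n` points, a multiplicity `p` with `c + 1 ≤ p * n` and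
  a finite set `S` of special places there is a Gauss unit `f0` with
  `div f0 = p • D0 - Dw`, `Dw ≥ 0` (so `Dw ∈ |p • D0|`), such that the reduction of the support of
  `Dw` avoids `S` and the special places of the chart.  The reduction of `f0` has divisor
  `r_* (p • D0 - Dw)`: its `p`-fold zeros are exactly the special points of the chart.
-/
import Mathlib
import Fermat.Agent.GH.Vocab
import Fermat.Agent.GH.G6.Generic

set_option autoImplicit false
set_option linter.unusedSectionVars false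

noncomputable section

open AlgebraicCurve

namespace Fermat.Agent.GR.W.K2.AuxData

open Fermat.Agent.RRh45 Fermat.Agent.GJ.S37MinDiv Fermat.Agent.GJ.J1 Fermat.Agent.GJ.S37LSpace
  Fermat.Agent.GJ.S37ROfSurj Fermat.Agent.GH Fermat.Agent.GH.G6

variable {K F k Ft : Type*} [Field K] [Field F] [Algebra K F] [Field k] [Field Ft] [Algebra k Ft]
variable {R : RedData K F k Ft} {g c : ℤ}
variable [FiniteResidues K F] [HasPrincipalDivisors K F] [Nonempty (Place K F)]
variable [FiniteResidues k Ft] [HasPrincipalDivisors k Ft] [Nonempty (Place k Ft)]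
variable [Infinite k]

/-! ### (S) semicontinuity -/

/-- the reduction of an integral element of `L(D)` lies in `L(r_* D)`: no condition on `D`. -/
theorem redSpace_le (H : LSpaceHyp R g c) (D : Divisor K F) :
    redSpace R D ≤ riemannRochSpace (Finsupp.mapDomain (rOf H) D) := by
  rintro xt ⟨x, hxD, rfl⟩
  rw [mem_riemannRochSpace_iff]
  intro Q
  by_cases hx : R.red x = 0
  · exact Or.inl hx
  right
  have hx0 : (x : F) ≠ 0 := fun h => hx (by rw [show x = 0 from Subtype.ext h, map_zero])
  obtain ⟨Dx, hDx, -⟩ := HasPrincipalDivisors.exists_divisor (K := K) (x : F) hx0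
  have hnn : 0 ≤ Dx + D := by
    rw [Finsupp.le_def]
    intro P
    have := (mem_riemannRochSpace_iff.mp hxD P).resolve_left hx0
    rw [Finsupp.add_apply, hDx P]
    simp only [Finsupp.coe_zero, Pi.zero_apply]
    omega
  have h1 := Finsupp.le_def.mp (Finsupp.mapDomain_nonneg (f := rOf H) hnn) Q
  rw [Finsupp.mapDomain_add, Finsupp.add_apply, mapDomain_rOf_principal H hx hDx Q] at h1
  simp only [Finsupp.coe_zero, Pi.zero_apply] at h1
  omega

/-- `l(D) ≤ l(r_* D)` for effective `D`. -/
theorem finrank_le_finrank_mapDomain (H : LSpaceHyp R g c) {D : Divisor K F} (hD : 0 ≤ D) :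
    Module.finrank K (riemannRochSpace D) ≤
      Module.finrank k (riemannRochSpace (Finsupp.mapDomain (rOf H) D)) := by
  rw [← H.orth D hD]
  exact Submodule.finrank_mono (redSpace_le H D)

/-- an effective divisor with non-special reduction (`l = 1`) is non-special. -/
theorem finrank_eq_one_of_mapDomain (H : LSpaceHyp R g c) {D : Divisor K F} (hD : 0 ≤ D)
    (h1 : Module.finrank k (riemannRochSpace (Finsupp.mapDomain (rOf H) D)) = 1) :
    Module.finrank K (riemannRochSpace D) = 1 := by
  have hle := finrank_le_finrank_mapDomain H hD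
  have hpos : 0 < Module.finrank K (riemannRochSpace D) := by
    have : Nontrivial (riemannRochSpace D) :=
      ⟨⟨⟨1, one_mem_riemannRochSpace hD⟩, 0, fun h => one_ne_zero (congrArg Subtype.val h)⟩⟩
    exact Module.finrank_pos
  omega

/-! ### the base divisor of a chart and its reduction -/

section ChartLemmas

variable {H : LSpaceHyp R g c} {n : ℕ}

theorem D0_nonneg (𝔠 : Chart H n) : 0 ≤ 𝔠.D0 := by
  refine Finset.sum_nonneg fun i _ => ?_
  exact Finsupp.single_nonneg.mpr zero_le_one

/-- the reduction of the base divisor is `Σ Q_i`. -/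
theorem mapDomain_D0 (𝔠 : Chart H n) :
    Finsupp.mapDomain (rOf H) 𝔠.D0 = ∑ i, Finsupp.single (𝔠.Q i) (1 : ℤ) := by
  rw [Chart.D0, Finsupp.mapDomain_finsetSum]
  refine Finset.sum_congr rfl fun i _ => ?_
  rw [Finsupp.mapDomain_single]
  congr 1
  exact (𝔠.pt i).hP

theorem degree_D0 (𝔠 : Chart H n) : Divisor.degree 𝔠.D0 = n := by
  rw [Chart.D0, map_sum]
  simp only [Divisor.degree_single, H.degF, Nat.cast_one, mul_one, Finset.sum_const,
    Finset.card_univ, Fintype.card_fin, nsmul_eq_mul]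

/-- value of the reduced base divisor: `1` on the special places of the chart, `0` elsewhere. -/
theorem sum_single_Q_apply (𝔠 : Chart H n) [DecidablePred (· ∈ 𝔠.supp)] (Q : Place k Ft) :
    (∑ i, Finsupp.single (𝔠.Q i) (1 : ℤ)) Q = if Q ∈ 𝔠.supp then 1 else 0 := by
  classical
  rw [Finsupp.finsetSum_apply]
  split_ifs with hQ
  · obtain ⟨j, rfl⟩ := hQ
    rw [Finset.sum_eq_single j]
    · exact Finsupp.single_eq_same
    · intro i _ hij
      exact Finsupp.single_eq_of_ne (fun h => hij (𝔠.hQ h.symm))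
    · intro h; exact absurd (Finset.mem_univ j) h
  · refine Finset.sum_eq_zero fun i _ => ?_
    exact Finsupp.single_eq_of_ne (fun h => hQ ⟨i, h.symm⟩)

/-- **the base divisor of a chart is non-special** (because its reduction is). -/
theorem finrank_D0_eq_one (𝔠 : Chart H n) :
    Module.finrank K (riemannRochSpace 𝔠.D0) = 1 := by
  refine finrank_eq_one_of_mapDomain H (D0_nonneg 𝔠) ?_
  rw [mapDomain_D0]
  exact 𝔠.hns

end ChartLemmas

/-! ### (P) the `p`-fold function -/

/-- **(P)** For a chart `𝔠` with `n` points, `p` with `c + 1 ≤ p * n` and a finite set `S` of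
special places: a Gauss unit `f0` with `div f0 = p • D0 - Dw`, `Dw ≥ 0` of degree `p * n`, the
reduction of the support of `Dw` avoiding `S` and the special places of the chart; the divisor of
`red f0` is the push-forward of `div f0`. -/
theorem exists_pfold (H : LSpaceHyp R g c) {n : ℕ} (𝔠 : Chart H n)
    [DecidablePred (· ∈ 𝔠.supp)] (p : ℕ)
    (hp : c + 1 ≤ (p : ℤ) * n) (S : Finset (Place k Ft)) :
    ∃ (f0 : R.Rw) (Dw : Divisor K F), R.red f0 ≠ 0 ∧ 0 ≤ Dw ∧
      Divisor.degree Dw = (p : ℤ) * n ∧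
      (∀ P : Place K F, P.ord (f0 : F) = (p : ℤ) * 𝔠.D0 P - Dw P) ∧
      (∀ P ∈ Dw.support, rOf H P ∉ S ∧ rOf H P ∉ 𝔠.supp) ∧
      (∀ Q : Place k Ft, Q.ord (R.red f0) =
        (p : ℤ) * (if Q ∈ 𝔠.supp then 1 else 0) - Finsupp.mapDomain (rOf H) Dw Q) := by
  classical
  -- the divisor `D = p • D0` and its reduction
  set D : Divisor K F := (p : ℤ) • 𝔠.D0 with hDdef
  have hD0 : 0 ≤ D := smul_nonneg (Int.natCast_nonneg p) (D0_nonneg 𝔠)
  have hDdeg : Divisor.degree D = (p : ℤ) * n := by
    rw [hDdef, map_zsmul, degree_D0, smul_eq_mul]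
  have hDP : ∀ P : Place K F, D P = (p : ℤ) * 𝔠.D0 P := fun P => by
    rw [hDdef, Finsupp.smul_apply, smul_eq_mul]
  obtain ⟨-, hdegt, hred⟩ := redSpace_eq H hD0 (by rw [hDdeg]; exact hp)
  set Dt : Divisor k Ft := Finsupp.mapDomain (rOf H) D with hDtdef
  have hDtQ : ∀ Q : Place k Ft, Dt Q = (p : ℤ) * (if Q ∈ 𝔠.supp then 1 else 0) := fun Q => by
    rw [hDtdef, hDdef, Finsupp.mapDomain_smul, Finsupp.smul_apply, mapDomain_D0,
      sum_single_Q_apply, smul_eq_mul]
  -- the finite set to avoid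
  set S' : Finset (Place k Ft) := S ∪ Finset.univ.image 𝔠.Q with hS'
  -- a generic member of `L(Dt)`
  obtain ⟨ht, hhtL, hht0, hhtS⟩ := exists_member_avoiding (K := k) (F := Ft) H.degFt H.rrFt
    (D := Dt) (by rw [hdegt, hDdeg]; exact hp) S'
  -- lift it
  rw [← hred] at hhtL
  obtain ⟨h, hhD, hhred⟩ := hhtL
  have hh0 : R.red h ≠ 0 := by rw [hhred]; exact hht0
  have hhF0 : (h : F) ≠ 0 := fun e => hh0 (by rw [show h = 0 from Subtype.ext e, map_zero])
  have hunit : IsUnit h := by
    by_contra hnu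
    exact hh0 ((R.red_eq_zero_iff h).mpr ((IsLocalRing.mem_maximalIdeal h).mpr hnu))
  obtain ⟨u, hu⟩ := hunit
  -- the divisor of `h`
  obtain ⟨Dh, hDh, hDhdeg⟩ := HasPrincipalDivisors.exists_divisor (K := K) (h : F) hhF0
  set Dw : Divisor K F := Dh + D with hDwdef
  have hDw0 : 0 ≤ Dw := by
    rw [Finsupp.le_def]
    intro P
    have := (mem_riemannRochSpace_iff.mp hhD P).resolve_left hhF0
    rw [hDwdef, Finsupp.add_apply, hDh P]
    simp only [Finsupp.coe_zero, Pi.zero_apply]
    omega
  -- the reduction of `Dw`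
  have hDwred : ∀ Q : Place k Ft, Finsupp.mapDomain (rOf H) Dw Q = Q.ord ht + Dt Q := fun Q => by
    rw [hDwdef, Finsupp.mapDomain_add, Finsupp.add_apply, mapDomain_rOf_principal H hh0 hDh Q,
      hhred]
  have hDwS' : ∀ Q ∈ S', Finsupp.mapDomain (rOf H) Dw Q = 0 := fun Q hQ => by
    rw [hDwred Q, hhtS Q hQ]; ring
  -- the inverse of `h`
  set f0 : R.Rw := ((u⁻¹ : R.Rwˣ) : R.Rw) with hf0def
  have hmul : (f0 : F) * (h : F) = 1 := by
    rw [← hu, hf0def, ← Subring.coe_mul, Units.inv_mul]; rfl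
  have hf0F : (f0 : F) ≠ 0 := left_ne_zero_of_mul_eq_one hmul
  have hredmul : R.red f0 * R.red h = 1 := by
    rw [← map_mul, ← hu, hf0def, Units.inv_mul, map_one]
  have hredf0 : R.red f0 ≠ 0 := left_ne_zero_of_mul_eq_one hredmul
  have hordf0 : ∀ P : Place K F, P.ord (f0 : F) = -P.ord (h : F) := fun P => by
    have := P.ord_mul hf0F hhF0
    rw [hmul, Place.ord_one] at this
    omega
  have hordred : ∀ Q : Place k Ft, Q.ord (R.red f0) = -Q.ord (R.red h) := fun Q => by
    have := Q.ord_mul hredf0 hh0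
    rw [hredmul, Place.ord_one] at this
    omega
  refine ⟨f0, Dw, hredf0, hDw0, ?_, ?_, ?_, ?_⟩
  · rw [hDwdef, map_add, hDhdeg, zero_add, hDdeg]
  · intro P
    rw [hordf0 P, hDwdef, Finsupp.add_apply, hDh P, hDP P]
    ring
  · intro P hP
    have hkey : rOf H P ∉ S' := by
      intro hmem
      have h0 := hDwS' _ hmem
      rw [mapDomain_apply_eq_sum] at h0
      have hnn : ∀ P' ∈ Dw.support.filter (fun P' => rOf H P' = rOf H P), 0 ≤ Dw P' :=
        fun P' _ => by simpa using Finsupp.le_def.mp hDw0 P'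
      have hz := (Finset.sum_eq_zero_iff_of_nonneg hnn).mp h0 P
        (Finset.mem_filter.mpr ⟨hP, rfl⟩)
      exact (Finsupp.mem_support_iff.mp hP) hz
    rw [hS', Finset.mem_union, not_or] at hkey
    refine ⟨hkey.1, ?_⟩
    rintro ⟨i, hi⟩
    exact hkey.2 (Finset.mem_image.mpr ⟨i, Finset.mem_univ i, hi⟩)
  · intro Q
    rw [hordred Q, hhred, hDwred Q, hDtQ Q]
    ring

end Fermat.Agent.GR.W.K2.AuxData
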