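/-
GATE-R / S17 node GR-W-K2-LATTICE (helper68; K2 sub-leaf "integral bases compatible with
reduction", helper52 4492 COST list).  Abstract frame of `GH/Vocab.lean`.

For an effective divisor `D` the lattice `L(D) ∩ Rw` has an `R.A`-basis reducing to a `k`-basis of
the reduced space `redSpace R D` (`= L(r_* D)` when `deg D ≥ c + 1`):

* `res_eq_zero_iff`       : `R.res a = 0 ↔ v(a) < 1`;
* `smulA`, `red_smulA`, `red_sum_smulA` : reduction of `A`-linear combinations;
* `exists_latticeBasis`   : `b : Fin m → Rw`, `b j ∈ L(D)`, `red ∘ b` a `k`-basis of `redSpace R D`,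
  `b` a `K`-basis of `L(D)`, and the GAUSS-NORM property
  `Σ a_j b_j ∈ Rw ↔ ∀ j, a_j ∈ A`.
-/
import Mathlib
import Fermat.Agent.GH.Vocab

set_option autoImplicit false
set_option linter.unusedSectionVars false

noncomputable section

open AlgebraicCurve

namespace Fermat.Agent.GR.W.K2.LatticeBasis

open Fermat.Agent.RRh45 Fermat.Agent.GJ.S37MinDiv Fermat.Agent.GJ.J1 Fermat.Agent.GJ.S37LSpace
  Fermat.Agent.GJ.S37ROfSurj

/-- in a valuation subring, `v(x) < 1 ↔ x⁻¹ ∉ V` for `x ≠ 0`. -/
theorem valuation_lt_one_iff_inv_notMem {L : Type*} [Field L] (V : ValuationSubring L) {x : L}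
    (hx : x ≠ 0) : V.valuation x < 1 ↔ x⁻¹ ∉ V := by
  have hpos : 0 < V.valuation x := (Valuation.pos_iff _).mpr hx
  rw [← V.valuation_le_one_iff, map_inv₀, inv_le_one₀ hpos, not_le]

variable {K F k Ft : Type*} [Field K] [Field F] [Algebra K F] [Field k] [Field Ft] [Algebra k Ft]
variable (R : RedData K F k Ft)

/-! ### the base valuation ring inside `Rw` -/

/-- the image of `a ∈ A` in `Rw`. -/
def ofA (a : R.A) : R.Rw := ⟨algebraMap K F (a : K), (R.mem_A_iff a).1 a.2⟩

@[simp] theorem coe_ofA (a : R.A) : ((ofA R a : R.Rw) : F) = algebraMap K F (a : K) := rfl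

theorem red_ofA (a : R.A) : R.red (ofA R a) = algebraMap k Ft (R.res a) := R.red_algebraMap a

/-- `res a = 0` iff `a` is a non-unit of `A`. -/
theorem res_eq_zero_iff (a : R.A) : R.res a = 0 ↔ R.A.valuation (a : K) < 1 := by
  rcases eq_or_ne a 0 with rfl | ha
  · simp
  have haK : (a : K) ≠ 0 := fun h => ha (Subtype.ext h)
  have haF : algebraMap K F (a : K) ≠ 0 :=
    (map_ne_zero_iff _ (algebraMap K F).injective).mpr haK
  rw [← map_eq_zero_iff (algebraMap k Ft) (algebraMap k Ft).injective, ← red_ofA,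
    R.red_eq_zero_iff, ValuationSubring.valuation_lt_one_iff, coe_ofA,
    valuation_lt_one_iff_inv_notMem _ haF, valuation_lt_one_iff_inv_notMem _ haK, ← map_inv₀,
    ← R.mem_A_iff]

/-- multiplication of an element of `Rw` by a scalar of `A`. -/
def smulA (a : R.A) (x : R.Rw) : R.Rw := ofA R a * x

theorem coe_smulA (a : R.A) (x : R.Rw) : ((smulA R a x : R.Rw) : F) = (a : K) • (x : F) := by
  rw [smulA, Subring.coe_mul, coe_ofA, Algebra.smul_def]

theorem red_smulA (a : R.A) (x : R.Rw) : R.red (smulA R a x) = R.res a • R.red x := by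
  rw [smulA, map_mul, red_ofA, Algebra.smul_def]

theorem coe_sum_smulA {ι : Type*} (s : Finset ι) (a : ι → R.A) (x : ι → R.Rw) :
    ((∑ j ∈ s, smulA R (a j) (x j) : R.Rw) : F) = ∑ j ∈ s, (a j : K) • (x j : F) := by
  rw [AddSubmonoidClass.coe_finsetSum]
  exact Finset.sum_congr rfl fun j _ => coe_smulA R (a j) (x j)

theorem red_sum_smulA {ι : Type*} (s : Finset ι) (a : ι → R.A) (x : ι → R.Rw) :
    R.red (∑ j ∈ s, smulA R (a j) (x j)) = ∑ j ∈ s, R.res (a j) • R.red (x j) := by
  rw [map_sum]
  exact Finset.sum_congr rfl fun j _ => red_smulA R (a j) (x j)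

/-- reduction of an `A`-linear combination, in "membership" form. -/
theorem red_eq_sum_of_coe_eq {ι : Type*} (s : Finset ι) (a : ι → R.A) (x : ι → R.Rw) (y : R.Rw)
    (hy : (y : F) = ∑ j ∈ s, (a j : K) • (x j : F)) :
    R.red y = ∑ j ∈ s, R.res (a j) • R.red (x j) := by
  rw [← red_sum_smulA]
  congr 1
  apply Subtype.ext
  rw [hy, coe_sum_smulA]

/-! ### normalising a coefficient vector -/

/-- a nonzero coefficient vector has a coefficient of maximal valuation. -/
theorem exists_max_coeff {m : ℕ} (a : Fin m → K) (ha : a ≠ 0) :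
    ∃ j₀, a j₀ ≠ 0 ∧ ∀ j, R.A.valuation (a j) ≤ R.A.valuation (a j₀) := by
  obtain ⟨j₁, hj₁⟩ : ∃ j, a j ≠ 0 := by
    by_contra h
    push Not at h
    exact ha (funext h)
  have hne : (Finset.univ : Finset (Fin m)).Nonempty := ⟨j₁, Finset.mem_univ _⟩
  obtain ⟨j₀, -, hj₀⟩ := Finset.exists_max_image Finset.univ (fun j => R.A.valuation (a j)) hne
  refine ⟨j₀, ?_, fun j => hj₀ j (Finset.mem_univ j)⟩
  intro h0
  have := hj₀ j₁ (Finset.mem_univ j₁)
  rw [h0, map_zero] at this
  exact hj₁ ((map_eq_zero _).mp (le_antisymm this zero_le))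

/-- the normalised coefficients `a j / a j₀` lie in `A`. -/
theorem div_mem_A {m : ℕ} (a : Fin m → K) {j₀ : Fin m} (_h0 : a j₀ ≠ 0)
    (hmax : ∀ j, R.A.valuation (a j) ≤ R.A.valuation (a j₀)) (j : Fin m) :
    a j / a j₀ ∈ R.A := by
  rw [← R.A.valuation_le_one_iff, map_div₀]
  exact div_le_one_of_le₀ (hmax j) zero_le

/-! ### the lattice basis -/

variable {R}
variable {g c : ℤ}
variable [FiniteResidues K F] [HasPrincipalDivisors K F] [Nonempty (Place K F)]

/-- a family of elements of `Rw` with `k`-linearly independent reductions is `K`-linearly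
independent, and an integral combination is in `Rw` iff its coefficients are in `A`. -/
theorem gauss_of_linearIndependent_red {m : ℕ} (b : Fin m → R.Rw)
    (hb : LinearIndependent k (fun j => R.red (b j))) (a : Fin m → K)
    (hmem : (∑ j, a j • (b j : F)) ∈ R.Rw) : ∀ j, a j ∈ R.A := by
  by_contra hcon
  push Not at hcon
  obtain ⟨j₁, hj₁⟩ := hcon
  have ha : a ≠ 0 := by
    rintro rfl
    exact hj₁ (by simp [R.A.zero_mem])
  obtain ⟨j₀, h0, hmax⟩ := exists_max_coeff R a ha
  -- `v(a j₀) > 1`
  have hbig : 1 < R.A.valuation (a j₀) := by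
    have h1 : ¬ R.A.valuation (a j₁) ≤ 1 := fun h => hj₁ ((R.A.valuation_le_one_iff _).mp h)
    exact lt_of_lt_of_le (not_le.mp h1) (hmax j₁)
  set a' : Fin m → R.A := fun j => ⟨a j / a j₀, div_mem_A R a h0 hmax j⟩ with ha'
  -- `(a j₀)⁻¹` is a non-unit of `A`
  have hinvA : (a j₀)⁻¹ ∈ R.A := by
    rw [← R.A.valuation_le_one_iff, map_inv₀]
    exact (inv_le_one₀ (lt_trans zero_lt_one hbig)).mpr hbig.le
  have hres0 : R.res ⟨(a j₀)⁻¹, hinvA⟩ = 0 := by
    rw [res_eq_zero_iff]
    show R.A.valuation (a j₀)⁻¹ < 1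
    rw [map_inv₀]
    exact inv_lt_one_of_one_lt₀ hbig
  -- the rescaled sum
  set y : R.Rw := smulA R ⟨(a j₀)⁻¹, hinvA⟩ ⟨_, hmem⟩ with hy
  have hycoe : (y : F) = ∑ j, ((a' j : R.A) : K) • (b j : F) := by
    rw [hy, coe_smulA]
    show (a j₀)⁻¹ • (∑ j, a j • (b j : F)) = _
    rw [Finset.smul_sum]
    refine Finset.sum_congr rfl fun j _ => ?_
    rw [smul_smul]
    congr 1
    show (a j₀)⁻¹ * a j = a j / a j₀
    rw [div_eq_mul_inv, mul_comm]
  have hred0 : R.red y = 0 := by rw [hy, red_smulA, hres0, zero_smul]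
  have hsum := red_eq_sum_of_coe_eq R Finset.univ a' b y hycoe
  rw [hred0] at hsum
  have hzero := Fintype.linearIndependent_iff.mp hb (fun j => R.res (a' j)) hsum.symm j₀
  have hone : a' j₀ = 1 := Subtype.ext (by show a j₀ / a j₀ = 1; exact div_self h0)
  rw [hone, map_one] at hzero
  exact one_ne_zero hzero

theorem linearIndependent_of_red {m : ℕ} (b : Fin m → R.Rw)
    (hb : LinearIndependent k (fun j => R.red (b j))) :
    LinearIndependent K (fun j => (b j : F)) := by
  rw [Fintype.linearIndependent_iff]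
  intro a hsum
  by_contra hcon
  push Not at hcon
  obtain ⟨j₁, hj₁⟩ := hcon
  have ha : a ≠ 0 := fun h => hj₁ (by rw [h]; rfl)
  obtain ⟨j₀, h0, hmax⟩ := exists_max_coeff R a ha
  set a' : Fin m → R.A := fun j => ⟨a j / a j₀, div_mem_A R a h0 hmax j⟩ with ha'
  have hycoe : ((0 : R.Rw) : F) = ∑ j, ((a' j : R.A) : K) • (b j : F) := by
    have h1 : (a j₀)⁻¹ • (∑ j, a j • (b j : F)) = 0 := by rw [hsum, smul_zero]
    rw [Finset.smul_sum] at h1
    rw [ZeroMemClass.coe_zero, ← h1]
    refine Finset.sum_congr rfl fun j _ => ?_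
    rw [smul_smul]
    congr 1
    show (a j₀)⁻¹ * a j = a j / a j₀
    rw [div_eq_mul_inv, mul_comm]
  have hsum' := red_eq_sum_of_coe_eq R Finset.univ a' b 0 hycoe
  rw [map_zero] at hsum'
  have hzero := Fintype.linearIndependent_iff.mp hb (fun j => R.res (a' j)) hsum'.symm j₀
  have hone : a' j₀ = 1 := Subtype.ext (by show a j₀ / a j₀ = 1; exact div_self h0)
  rw [hone, map_one] at hzero
  exact one_ne_zero hzero

/-- **lattice basis**: for an effective `D` there are `b_1..b_m ∈ L(D) ∩ Rw` (`m = l(D)`) whose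
reductions form a `k`-basis of `redSpace R D`, which form a `K`-basis of `L(D)`, and with the
Gauss-norm property. -/
theorem exists_latticeBasis (H : LSpaceHyp R g c) {D : Divisor K F} (hD : 0 ≤ D) :
    ∃ (m : ℕ) (b : Fin m → R.Rw),
      m = Module.finrank K (riemannRochSpace D) ∧
      (∀ j, (b j : F) ∈ riemannRochSpace D) ∧
      LinearIndependent k (fun j => R.red (b j)) ∧
      Submodule.span k (Set.range fun j => R.red (b j)) = redSpace R D ∧
      LinearIndependent K (fun j => (b j : F)) ∧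
      Submodule.span K (Set.range fun j => (b j : F)) = riemannRochSpace D ∧
      (∀ a : Fin m → K, (∑ j, a j • (b j : F)) ∈ R.Rw ↔ ∀ j, a j ∈ R.A) := by
  classical
  have hfin : Module.Finite k (redSpace R D) := finite_redSpace H hD
  set m := Module.finrank k (redSpace R D) with hm
  let B := Module.finBasis k (redSpace R D)
  -- lift the basis vectors
  have hlift : ∀ j : Fin m, ∃ x : R.Rw, (x : F) ∈ riemannRochSpace D ∧
      R.red x = ((B j : redSpace R D) : Ft) := fun j => mem_redSpace.mp (B j).2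
  choose b hbD hbred using hlift
  have hbk : LinearIndependent k (fun j => R.red (b j)) := by
    have h1 : LinearIndependent k (fun j => ((B j : redSpace R D) : Ft)) :=
      B.linearIndependent.map' (redSpace R D).subtype (Submodule.ker_subtype _)
    convert h1 using 2
    exact hbred _
  have hspank : Submodule.span k (Set.range fun j => R.red (b j)) = redSpace R D := by
    have h1 : (fun j => R.red (b j)) = (redSpace R D).subtype ∘ B := by
      funext j; exact hbred j
    rw [h1, Set.range_comp, Submodule.span_image, B.span_eq, Submodule.map_top,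
      Submodule.range_subtype]
  have hbK := linearIndependent_of_red b hbk
  have hmK : m = Module.finrank K (riemannRochSpace D) := by rw [hm, H.orth D hD]
  have hspanK : Submodule.span K (Set.range fun j => (b j : F)) = riemannRochSpace D := by
    refine Submodule.eq_of_le_of_finrank_eq ?_ ?_
    · rw [Submodule.span_le]
      rintro _ ⟨j, rfl⟩
      exact hbD j
    · rw [finrank_span_eq_card hbK, Fintype.card_fin, hmK]
  refine ⟨m, b, hmK, hbD, hbk, hspank, hbK, hspanK, fun a => ⟨?_, ?_⟩⟩
  · exact gauss_of_linearIndependent_red b hbk a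
  · intro ha
    refine Subring.sum_mem _ fun j _ => ?_
    have := (smulA R ⟨a j, ha j⟩ (b j)).2
    rwa [coe_smulA] at this

end Fermat.Agent.GR.W.K2.LatticeBasis
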