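/-
GATE-R / S17 (W) — node GR-W-K2-KERGEN (helper75): step (1) GENERATORS of helper52's (K2)
(board 4492): the kernel of the reduction map `Pic⁰(X_K) → Pic⁰(X̃_k)` is generated by the classes
`[P − P']` of pairs of points with the same reduction.

* `mem_closure_pairs_of_mapDomain_eq_zero` : (Finsupp) `r_* E = 0 ⟹ E ∈ ⟨a − a' : r a = r a'⟩`.
* abstract frame `(R : RedData K F k Ft) (H : LSpaceHyp R g c)`:
  `exists_principal_sub` : `r_* D` principal `⟹ ∃ Dy` principal with `r_* (D − Dy) = 0`
  (lift a function with divisor `r_* D` to the Gauss ring; `mapDomain_rOf_principal`);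
  `exists_mem_closure_pairSet` : the class of `D` is the class of an element of the subgroup of
  degree-zero divisors generated by the pairs `P − P'`, `rOf H P = rOf H P'`;
  `exists_nsmul_of_pairs` : if every pair class is `n`-divisible in `Pic⁰`, so is `[D]`.
* frozen frame (`ℓ ∤ N`, `𝒜 ∣ ℓ`, side conditions of the level package):
  `ker_reductionModL` / `exists_nsmul_of_ker_reductionModL` — the same for
  `(reductionModL 𝒜 N).ker`, with `r = placeReductionModL h = rOf H'` (`H'` the `LSpaceHyp` of the
  full Gauss datum), so the pairs are pairs for the chart frame of `GH/Vocab.lean` as well.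
-/
import Fermat.Agent.GJ.S37.LSpaceGateProof
import Fermat.Agent.GJ.S37.UniqFrac
import Fermat.Agent.GJ.S37.BarToFull

set_option autoImplicit false
set_option synthInstance.maxHeartbeats 400000
set_option maxHeartbeats 1000000

noncomputable section

open AlgebraicCurve ModularCurve

namespace Fermat.Agent.GR.W.K2.KerGen

/-! ### (a) a Finsupp lemma -/

section Fin

variable {α β : Type*}

/-- the set of "pairs" `a − a'` with `r a = r a'`. -/
def pairs (r : α → β) : Set (α →₀ ℤ) :=
  {x | ∃ a a', r a = r a' ∧ x = Finsupp.single a 1 - Finsupp.single a' 1}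

/-- a finitely supported integer function whose push-forward along `r` vanishes is a sum of
pairs `a − a'` with `r a = r a'`. -/
theorem mem_closure_pairs_of_mapDomain_eq_zero (r : α → β) (E : α →₀ ℤ)
    (h : Finsupp.mapDomain r E = 0) : E ∈ AddSubgroup.closure (pairs r) := by
  classical
  rcases isEmpty_or_nonempty α with hα | hα
  · have : E = 0 := Finsupp.ext fun a => (hα.false a).elim
    rw [this]; exact AddSubgroup.zero_mem _
  -- a section of `r` on its range
  let s : β → α := fun b => if hb : ∃ a, r a = b then hb.choose else Classical.arbitrary α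
  have hs : ∀ a, r (s (r a)) = r a := fun a => by
    have hb : ∃ a', r a' = r a := ⟨a, rfl⟩
    simp only [s, dif_pos hb]
    exact hb.choose_spec
  -- every `E − s_* r_* E` is a sum of pairs
  have key : ∀ E : α →₀ ℤ, E - Finsupp.mapDomain s (Finsupp.mapDomain r E) ∈
      AddSubgroup.closure (pairs r) := by
    intro E
    induction E using Finsupp.induction_linear with
    | zero => simp only [Finsupp.mapDomain_zero, sub_zero]; exact AddSubgroup.zero_mem _
    | add E E' hE hE' =>
      have : E + E' - Finsupp.mapDomain s (Finsupp.mapDomain r (E + E')) =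
          (E - Finsupp.mapDomain s (Finsupp.mapDomain r E)) +
            (E' - Finsupp.mapDomain s (Finsupp.mapDomain r E')) := by
        rw [Finsupp.mapDomain_add, Finsupp.mapDomain_add]; abel
      rw [this]; exact AddSubgroup.add_mem _ hE hE'
    | single a n =>
      rw [Finsupp.mapDomain_single, Finsupp.mapDomain_single]
      have : (Finsupp.single a n - Finsupp.single (s (r a)) n : α →₀ ℤ) =
          n • (Finsupp.single a 1 - Finsupp.single (s (r a)) 1) := by
        rw [smul_sub, Finsupp.smul_single, Finsupp.smul_single, smul_eq_mul, mul_one]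
      rw [this]
      exact AddSubgroup.zsmul_mem _ (AddSubgroup.subset_closure
        (show _ ∈ pairs r from ⟨a, s (r a), (hs a).symm, rfl⟩)) n
  have := key E
  rwa [h, Finsupp.mapDomain_zero, sub_zero] at this

end Fin

/-! ### (b) the abstract frame -/

section Abstract

open Fermat.Agent.GJ.S37LSpace Fermat.Agent.GJ.J1 Fermat.Agent.RRh45

variable {K F k Ft : Type*} [Field K] [Field F] [Algebra K F] [Field k] [Field Ft] [Algebra k Ft]

/-- the degree-zero divisors `P − P'` with `r P = r P'`. -/
def pairSet (r : Place K F → Place k Ft) : Set (Divisor.degZero (K := K) (F := F)) :=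
  {D | ∃ P P', r P = r P' ∧ (D : Divisor K F) = Finsupp.single P 1 - Finsupp.single P' 1}

/-- sums of pairs (as divisors) are sums of pairs (as degree-zero divisors), when all places have
degree one. -/
theorem exists_mem_closure_pairSet_of_mem_closure_pairs (r : Place K F → Place k Ft)
    (hdeg : ∀ P : Place K F, P.deg = 1) {E : Divisor K F}
    (hE : E ∈ AddSubgroup.closure (pairs r)) :
    ∃ hE0 : E ∈ Divisor.degZero (K := K) (F := F),
      (⟨E, hE0⟩ : Divisor.degZero (K := K) (F := F)) ∈ AddSubgroup.closure (pairSet r) := by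
  induction hE using AddSubgroup.closure_induction with
  | mem x hx =>
    obtain ⟨P, P', hPP', rfl⟩ := hx
    have h0 : (Finsupp.single P 1 - Finsupp.single P' 1 : Divisor K F) ∈
        Divisor.degZero (K := K) (F := F) := by
      rw [Divisor.mem_degZero, map_sub, Divisor.degree_single, Divisor.degree_single, hdeg, hdeg]
      ring
    exact ⟨h0, AddSubgroup.subset_closure ⟨P, P', hPP', rfl⟩⟩
  | zero => exact ⟨AddSubgroup.zero_mem _, AddSubgroup.zero_mem _⟩
  | add x y _ _ hx hy =>
    obtain ⟨hx0, hx1⟩ := hx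
    obtain ⟨hy0, hy1⟩ := hy
    exact ⟨AddSubgroup.add_mem _ hx0 hy0, AddSubgroup.add_mem _ hx1 hy1⟩
  | neg x _ hx =>
    obtain ⟨hx0, hx1⟩ := hx
    exact ⟨AddSubgroup.neg_mem _ hx0, AddSubgroup.neg_mem _ hx1⟩

variable {R : RedData K F k Ft} {g c : ℤ}
variable [FiniteResidues K F] [HasPrincipalDivisors K F] [Nonempty (Place K F)]
variable [FiniteResidues k Ft] [HasPrincipalDivisors k Ft] [Nonempty (Place k Ft)]
variable [Infinite k]

/-- if the push-forward of `D` is principal on the special fibre, then `D` is linearly equivalent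
to a divisor whose push-forward is ZERO: lift a function `φ̃` with `div φ̃ = r_* D` to the Gauss
ring. -/
theorem exists_principal_sub (H : LSpaceHyp R g c) {D : Divisor K F}
    (hD : Finsupp.mapDomain (rOf H) D ∈ Divisor.principal (K := k) (F := Ft)) :
    ∃ Dy ∈ Divisor.principal (K := K) (F := F), Finsupp.mapDomain (rOf H) (D - Dy) = 0 := by
  obtain ⟨φ, hφ0, hφ⟩ := hD
  obtain ⟨y, hy⟩ := R.red_surjective φ
  have hy0 : R.red y ≠ 0 := by rw [hy]; exact hφ0
  have hyF : (y : F) ≠ 0 := fun h => hy0 (by rw [show y = 0 from Subtype.ext h, map_zero])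
  obtain ⟨Dy, hDy, -⟩ := HasPrincipalDivisors.exists_divisor (K := K) (y : F) hyF
  refine ⟨Dy, ⟨(y : F), hyF, hDy⟩, ?_⟩
  ext Q
  have h1 := mapDomain_rOf_principal H hy0 hDy Q
  rw [← Finsupp.mapDomain.addMonoidHom_apply, map_sub, Finsupp.mapDomain.addMonoidHom_apply,
    Finsupp.mapDomain.addMonoidHom_apply, Finsupp.sub_apply, h1, hy, hφ Q, sub_self,
    Finsupp.zero_apply]

/-- **GENERATORS (abstract).** If the push-forward of a degree-zero divisor `D` is principal, the
class of `D` in `Pic⁰` is the class of a sum of pairs `P − P'`, `rOf H P = rOf H P'`. -/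
theorem exists_mem_closure_pairSet (H : LSpaceHyp R g c)
    (D : Divisor.degZero (K := K) (F := F))
    (hD : Finsupp.mapDomain (rOf H) (D : Divisor K F) ∈ Divisor.principal (K := k) (F := Ft)) :
    ∃ E ∈ AddSubgroup.closure (pairSet (rOf H)), Pic0.mk E = Pic0.mk D := by
  obtain ⟨Dy, hDy, h0⟩ := exists_principal_sub H hD
  obtain ⟨hE0, hE1⟩ := exists_mem_closure_pairSet_of_mem_closure_pairs (rOf H) H.degF
    (mem_closure_pairs_of_mapDomain_eq_zero (rOf H) _ h0)
  refine ⟨_, hE1, ?_⟩
  refine (QuotientAddGroup.eq_iff_sub_mem).mpr ?_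
  rw [AddSubgroup.mem_addSubgroupOf]
  have : (((⟨(D : Divisor K F) - Dy, hE0⟩ : Divisor.degZero (K := K) (F := F)) - D :
      Divisor.degZero (K := K) (F := F)) : Divisor K F) = -Dy := by
    rw [AddSubgroup.coe_sub]; simp
  rw [this]
  exact AddSubgroup.neg_mem _ hDy

omit [FiniteResidues K F] [HasPrincipalDivisors K F] [Nonempty (Place K F)]
  [FiniteResidues k Ft] [HasPrincipalDivisors k Ft] [Nonempty (Place k Ft)] [Infinite k] in
/-- divisibility passes from the pair classes to every class of the subgroup they generate. -/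
theorem exists_nsmul_of_mem_closure_pairSet (r : Place K F → Place k Ft) (n : ℕ)
    (hpair : ∀ D ∈ pairSet r, ∃ y : Pic0 K F, n • y = Pic0.mk D)
    {E : Divisor.degZero (K := K) (F := F)} (hE : E ∈ AddSubgroup.closure (pairSet r)) :
    ∃ y : Pic0 K F, n • y = Pic0.mk E := by
  induction hE using AddSubgroup.closure_induction with
  | mem x hx => exact hpair x hx
  | zero => exact ⟨0, by rw [nsmul_zero]; rfl⟩
  | add x y _ _ hx hy =>
    obtain ⟨a, ha⟩ := hx
    obtain ⟨b, hb⟩ := hy
    exact ⟨a + b, by rw [nsmul_add, ha, hb, Pic0.mk_add]⟩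
  | neg x _ hx =>
    obtain ⟨a, ha⟩ := hx
    exact ⟨-a, by rw [neg_nsmul, ha]; rfl⟩

/-- **(K2) from the pairs (abstract).** If every pair class `[P − P']`, `rOf H P = rOf H P'`, is
`n`-divisible in `Pic⁰`, then so is every class whose push-forward is principal. -/
theorem exists_nsmul_of_pairs (H : LSpaceHyp R g c) (n : ℕ)
    (hpair : ∀ D ∈ pairSet (rOf H), ∃ y : Pic0 K F, n • y = Pic0.mk D)
    (D : Divisor.degZero (K := K) (F := F))
    (hD : Finsupp.mapDomain (rOf H) (D : Divisor K F) ∈ Divisor.principal (K := k) (F := Ft)) :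
    ∃ y : Pic0 K F, n • y = Pic0.mk D := by
  obtain ⟨E, hE, hED⟩ := exists_mem_closure_pairSet H D hD
  rw [← hED]
  exact exists_nsmul_of_mem_closure_pairSet (rOf H) n hpair hE

end Abstract

/-! ### (c) the frozen frame -/

section Frozen

open Fermat.Agent.GJ.S37LSpace Fermat.Agent.GJ.J1 Fermat.Agent.GJ.J1.Val Fermat.Agent.RRh45
  Fermat.Agent.GJ.S37Bridge Fermat.Agent.GJ.FibreCurve Fermat.Agent.GJ.FF.Fibre
  Fermat.Agent.S24

variable {N : ℕ} [NeZero N] {A : ValuationSubring (AlgebraicClosure ℚ)}

/-- **GENERATORS, frozen frame, full Gauss datum.** Every class of `ker (reductionModL A N)` is the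
class of a sum of pairs `P − P'` with `r P = r P'`, `r = placeReductionModL h` (`= rOf H` for any
`LSpaceHyp` `H` of the full Gauss datum `redDataFull N A hle`, by `S37UniqFrac.eq_rOf`). -/
theorem ker_reductionModL_full
    (hle : FresBar N A ≤ modularFunctionFieldFullC (IsLocalRing.ResidueField A) N)
    {g c : ℤ} (H : LSpaceHyp (redDataFull N A hle) g c) (h : ReductionInputsModL A N)
    (x : JZero N) (hx : reductionModL A N x = 0) :
    ∃ E ∈ AddSubgroup.closure (pairSet (placeReductionModL h)), Pic0.mk E = x := by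
  have : IsGen (AlgebraicClosure ℚ) (jF N) := S24_helper62.isGen_jF N
  have h1 : FiniteResidues (AlgebraicClosure ℚ) (modularFunctionFieldBar N) :=
    Fermat.Agent.GJ.FF.finiteResidues (K := AlgebraicClosure ℚ) (jF N)
  have h2 := finiteResidues_fibre (k := IsLocalRing.ResidueField A) N A (IsLocalRing.residue A)
  have h3 := hasPrincipalDivisors_fibre' (k := IsLocalRing.ResidueField A) N A
    (IsLocalRing.residue A)
  have h4 := nonempty_place_fibre' (k := IsLocalRing.ResidueField A) N A (IsLocalRing.residue A)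
  have h5 := infinite_residueField (A := A)
  have hr : placeReductionModL h = rOf H :=
    Fermat.Agent.GJ.S37UniqFrac.eq_rOf (isPlaceReductionModL_placeReductionModL h) hle H
  obtain ⟨D, rfl⟩ := Pic0.mk_surjective x
  rw [reductionModL_mk h D] at hx
  have hD : Finsupp.mapDomain (rOf H) (D : Divisor (AlgebraicClosure ℚ) (modularFunctionFieldBar N))
      ∈ Divisor.principal (K := IsLocalRing.ResidueField A)
        (F := modularFunctionFieldFullC (IsLocalRing.ResidueField A) N) := by
    have h0 := (QuotientAddGroup.eq_zero_iff _).mp hx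
    rw [AddSubgroup.mem_addSubgroupOf, coe_reductionDegZeroAlong, hr] at h0
    exact h0
  rw [hr]
  exact exists_mem_closure_pairSet H D hD

/-- **GENERATORS, frozen frame.** At a level `N` and a prime `ℓ ∤ N` (`3 ∣ N` if `ℓ = 2`, `2 ∣ N` if
`ℓ = 3`), `A` over `ℓ`: there are reduction inputs `h` whose place reduction map is THE place
reduction map, and every class of `ker (reductionModL A N)` is the class of a sum of pairs `P − P'`
with the same reduction. -/
theorem ker_reductionModL {ℓ : ℕ} (hℓ : ℓ.Prime) (hN : ¬ ℓ ∣ N) (h2 : ℓ = 2 → 3 ∣ N)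
    (h3 : ℓ = 3 → 2 ∣ N) (hA : A.LiesOverPrime ℓ) :
    ∃ h : ReductionInputsModL A N,
      (∀ r', IsPlaceReductionModL A N r' → r' = placeReductionModL h) ∧
      ∀ x : JZero N, reductionModL A N x = 0 →
        ∃ E ∈ AddSubgroup.closure (pairSet (placeReductionModL h)), Pic0.mk E = x := by
  have : Fact ℓ.Prime := ⟨hℓ⟩
  obtain ⟨g, c, H⟩ := Fermat.Agent.GJ.S37LSpaceGate.lSpaceGate N hℓ hN h2 h3 A hA
  have H' := Fermat.Agent.GJ.S37BarToFull.exists_lSpaceHyp_full hN hA H
  have h : ReductionInputsModL A N :=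
    Fermat.Agent.GJ.S37BarToFull.reductionInputsModL_of_bar hN hA H
  exact ⟨h, fun r' hr' => Fermat.Agent.GJ.S37UniqFrac.uniq_placeReductionModL
    (Fermat.Agent.GJ.J1.Res.FresBar_le_fullC N A hN hA) H' h hr',
    ker_reductionModL_full (Fermat.Agent.GJ.J1.Res.FresBar_le_fullC N A hN hA) H' h⟩

/-- **(K2) from the pairs, frozen frame**: if every class `[P − P']` of a pair of points with the
same reduction is `n`-divisible in `JZero N`, then every class of `ker (reductionModL A N)` is. -/
theorem exists_nsmul_of_ker_reductionModL {ℓ : ℕ} (hℓ : ℓ.Prime) (hN : ¬ ℓ ∣ N)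
    (h2 : ℓ = 2 → 3 ∣ N) (h3 : ℓ = 3 → 2 ∣ N) (hA : A.LiesOverPrime ℓ) (n : ℕ)
    (hpair : ∀ (h : ReductionInputsModL A N),
      ∀ D ∈ pairSet (placeReductionModL h), ∃ y : JZero N, n • y = Pic0.mk D)
    (x : JZero N) (hx : reductionModL A N x = 0) : ∃ y : JZero N, n • y = x := by
  obtain ⟨h, -, hker⟩ := ker_reductionModL hℓ hN h2 h3 hA
  obtain ⟨E, hE, rfl⟩ := hker x hx
  exact exists_nsmul_of_mem_closure_pairSet (placeReductionModL h) n (hpair h) hE

/-- the same at `ℓ ≥ 5`, in the kernel-membership form of `GR/W/KummerAbs.lean`'s `hK2` binder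
(the Galois-invariance hypothesis there is not needed). -/
theorem exists_nsmul_of_mem_ker {ℓ : ℕ} (hℓ : ℓ.Prime) (h5 : 5 ≤ ℓ) (hN : ¬ ℓ ∣ N)
    (hA : A.LiesOverPrime ℓ) (n : ℕ)
    (hpair : ∀ (h : ReductionInputsModL A N),
      ∀ D ∈ pairSet (placeReductionModL h), ∃ y : JZero N, n • y = Pic0.mk D)
    (x : JZero N) (hx : x ∈ (reductionModL A N).ker) : ∃ y : JZero N, n • y = x :=
  exists_nsmul_of_ker_reductionModL hℓ hN (fun h => by omega) (fun h => by omega) hA n hpair x
    (AddMonoidHom.mem_ker.mp hx)

end Frozen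

end Fermat.Agent.GR.W.K2.KerGen

end
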