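/-
GATE-R / S17 (W) — node GR-W-K2-TOP (helper52, K2 owner): from the ABSTRACT pair theorem of the
UPFV route (helper19, board 4799: `u ^ p = f * v` in fixed L-spaces) to the `hK2` binder of
`GR/W/AsmKummer.weakMW_of_K2_redfin` for `JZero N`.

* `PairHyp N A hℓN hA p` : the abstract pair statement, specialised to the FULL frame
  `redDataH N A hℓN hA` of `GH/Inst` (every class `[P − P']` with `rOf H P = rOf H P'` is
  `p`-divisible in `Pic⁰`), for every `LSpaceHyp` of that datum whose genus is a natural number.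
* `exists_nsmul_of_pairHyp` : `PairHyp` ⟹ every class of `ker (reductionModL A N)` is `p`-divisible
  (generators: helper75 `KerGen.ker_reductionModL_full`; `placeReductionModL h = rOf H` by
  `S37UniqFrac.eq_rOf`).
* `hK2_of_pairHyp` : the binder `hK2` of `weakMW_of_K2_redfin` VERBATIM.
* `natCast_residue_ne_zero` : `(p : k) ≠ 0` for a prime `p ≠ ℓ` (the only arithmetic hypothesis of
  the abstract pair theorem).
-/
import Fermat.Agent.GR.W.K2.KerGen
import Fermat.Agent.GH.Inst.Main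

set_option autoImplicit false
set_option synthInstance.maxHeartbeats 400000
set_option maxHeartbeats 1000000

noncomputable section

open AlgebraicCurve ModularCurve

namespace Fermat.Agent.GR.W.K2.Top

open Fermat.Agent.RRh45 Fermat.Agent.GJ.J1 Fermat.Agent.GJ.J1.Val Fermat.Agent.GJ.S37LSpace
  Fermat.Agent.GJ.S37Bridge Fermat.Agent.GJ.S37BarToFull Fermat.Agent.S24
  Fermat.Agent.GH.Inst Fermat.Agent.GR.W.K2.KerGen

/-- `ℚ̄`. -/
local notation "Qb" => AlgebraicClosure ℚ

variable (N : ℕ) [NeZero N] (A : ValuationSubring Qb)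

/-- **the abstract pair statement at the FULL frame** (hypothesis form of the UPFV theorem):
for every `LSpaceHyp` of the full Gauss datum with genus a natural number, every class
`[P − P']`, `rOf H P = rOf H P'`, is `p`-divisible in `Pic⁰ = JZero N`. -/
def PairHyp {ℓ : ℕ} [Fact ℓ.Prime] (hℓN : ¬ ℓ ∣ N) (hA : A.LiesOverPrime ℓ) (p : ℕ) : Prop :=
  haveI := finiteResidues_bar N
  haveI := hasPrincipalDivisors_bar N
  haveI := nonempty_place_bar N
  haveI := finiteResidues_fib N A
  haveI := hasPrincipalDivisors_fib N A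
  haveI := nonempty_place_fib N A
  haveI := infinite_kA A
  ∀ (g c : ℤ) (H : LSpaceHyp (redDataH N A hℓN hA) g c) (n : ℕ), (n : ℤ) = g →
    ∀ D ∈ pairSet (rOf H), ∃ y : JZero N, p • y = Pic0.mk D

variable {N A}

/-- **(K2) from the abstract pair statement**: every class of `ker (reductionModL A N)` is
`p`-divisible in `JZero N`. -/
theorem exists_nsmul_of_pairHyp {ℓ : ℕ} [Fact ℓ.Prime] (hℓN : ¬ ℓ ∣ N) (h2 : ℓ = 2 → 3 ∣ N)
    (h3 : ℓ = 3 → 2 ∣ N) (hA : A.LiesOverPrime ℓ) (p : ℕ) (hpair : PairHyp N A hℓN hA p)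
    (x : JZero N) (hx : reductionModL A N x = 0) : ∃ y : JZero N, p • y = x := by
  have i1 := finiteResidues_bar N
  have i2 := hasPrincipalDivisors_bar N
  have i3 := nonempty_place_bar N
  have i4 := finiteResidues_fib N A
  have i5 := hasPrincipalDivisors_fib N A
  have i6 := nonempty_place_fib N A
  have i7 := infinite_kA A
  obtain ⟨g, c, H⟩ := Fermat.Agent.GJ.S37LSpaceGate.lSpaceGate N Fact.out hℓN h2 h3 A hA
  have H' : LSpaceHyp (redDataH N A hℓN hA) g c :=
    Fermat.Agent.GJ.S37BarToFull.exists_lSpaceHyp_full hℓN hA H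
  have h : ReductionInputsModL A N :=
    Fermat.Agent.GJ.S37BarToFull.reductionInputsModL_of_bar hℓN hA H
  obtain ⟨n, hn⟩ := lSpaceHyp_exists_nat_eq H'
  have hr : placeReductionModL h = rOf H' :=
    Fermat.Agent.GJ.S37UniqFrac.eq_rOf (isPlaceReductionModL_placeReductionModL h)
      (Res.FresBar_le_fullC N A hℓN hA) H'
  obtain ⟨E, hE, rfl⟩ :=
    ker_reductionModL_full (Res.FresBar_le_fullC N A hℓN hA) H' h x hx
  rw [hr] at hE
  exact exists_nsmul_of_mem_closure_pairSet (rOf H') p (hpair g c H' n hn) hE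

/-- **the binder `hK2` of `GR/W/AsmKummer.weakMW_of_K2_redfin`**, from the abstract pair statement
(the Galois-invariance hypothesis is not needed). -/
theorem hK2_of_pairHyp {ℓ : ℕ} [Fact ℓ.Prime] (h5 : 5 ≤ ℓ) (hℓN : ¬ ℓ ∣ N)
    (hA : A.LiesOverPrime ℓ) (p : ℕ) (hpair : PairHyp N A hℓN hA p) :
    ∀ x : JZero N, reductionModL A N x = 0 →
      (∀ σ : Qb ≃ₐ[ℚ] Qb, σ • x = x) → ∃ y : JZero N, p • y = x :=
  fun x hx _ =>
    exists_nsmul_of_pairHyp hℓN (fun h => by omega) (fun h => by omega) hA p hpair x hx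

/-- a prime `p ≠ ℓ` is invertible in the residue field of a place over `ℓ`. -/
theorem natCast_residue_ne_zero {ℓ : ℕ} (hℓ : ℓ.Prime) (hA : A.LiesOverPrime ℓ) {p : ℕ}
    (hp : p.Prime) (hpℓ : p ≠ ℓ) : ((p : ℕ) : kA A) ≠ 0 := by
  have hchar : CharP (kA A) ℓ := charP_kA A hℓ hA
  intro h0
  have hdvd : ℓ ∣ p := (CharP.cast_eq_zero_iff (kA A) ℓ p).mp h0
  exact hpℓ ((Nat.prime_dvd_prime_iff_eq hℓ hp).mp hdvd).symm

end Fermat.Agent.GR.W.K2.Top
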