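/-
GATE-R (S17) / W / K2 (helper19): THE TOP PLUG — `Top.PairHyp` is a theorem.

`Upfv.Main.exists_nsmul_pair` (abstract pair theorem) instantiated at the FULL frame
`redDataH N A hℓN hA` of `GH/Inst`; with helper52's `Top.hK2_of_pairHyp` this is the binder `hK2`
of `GR/W/AsmKummer.weakMW_of_K2_redfin` / `KummerUnrFinal.weakMW_of_K2_redfin` VERBATIM.
-/
import Fermat.Agent.GR.W.K2.Top
import Fermat.Agent.GR.W.K2.Upfv.Main

set_option autoImplicit false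
set_option synthInstance.maxHeartbeats 400000
set_option maxHeartbeats 1000000

noncomputable section

open AlgebraicCurve ModularCurve

namespace Fermat.Agent.GR.W.K2.PairTop

open Fermat.Agent.RRh45 Fermat.Agent.GJ.J1 Fermat.Agent.GJ.J1.Val Fermat.Agent.GJ.S37LSpace
  Fermat.Agent.GJ.S37Bridge Fermat.Agent.GJ.S37BarToFull Fermat.Agent.S24
  Fermat.Agent.GH.Inst Fermat.Agent.GR.W.K2.KerGen Fermat.Agent.GR.W.K2.Top

local notation "Qb" => AlgebraicClosure ℚ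

variable {N : ℕ} [NeZero N] {A : ValuationSubring Qb}

theorem pairHyp {ℓ : ℕ} [Fact ℓ.Prime] (hℓN : ¬ ℓ ∣ N) (hA : A.LiesOverPrime ℓ) {p : ℕ}
    (hp : p.Prime) (hpℓ : p ≠ ℓ) : PairHyp N A hℓN hA p := by
  have i1 := finiteResidues_bar N
  have i2 := hasPrincipalDivisors_bar N
  have i3 := nonempty_place_bar N
  have i4 := finiteResidues_fib N A
  have i5 := hasPrincipalDivisors_fib N A
  have i6 := nonempty_place_fib N A
  have i7 := infinite_kA A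
  intro g c H n hn D hD
  obtain ⟨P, P', hPP', hDeq⟩ := hD
  exact Upfv.Main.exists_nsmul_pair H hn hp.one_lt.le
    (natCast_residue_ne_zero Fact.out hA hp hpℓ) hPP' D hDeq

/-- **the binder `hK2`**: every rational class of `ker (reductionModL A N)` is `p`-divisible in
`JZero N`, for a place `A` of `ℚ̄` over a prime `ℓ ≥ 5`, `ℓ ∤ N`, and a prime `p ≠ ℓ`. -/
theorem hK2 {ℓ : ℕ} [Fact ℓ.Prime] (h5 : 5 ≤ ℓ) (hℓN : ¬ ℓ ∣ N) (hA : A.LiesOverPrime ℓ) {p : ℕ}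
    (hp : p.Prime) (hpℓ : p ≠ ℓ) :
    ∀ x : JZero N, reductionModL A N x = 0 →
      (∀ σ : Qb ≃ₐ[ℚ] Qb, σ • x = x) → ∃ y : JZero N, p • y = x :=
  hK2_of_pairHyp h5 hℓN hA p (pairHyp hℓN hA hp hpℓ)

/-- every class of `ker (reductionModL A N)` is `p`-divisible (no rationality needed). -/
theorem exists_nsmul_of_mem_ker {ℓ : ℕ} [Fact ℓ.Prime] (hℓN : ¬ ℓ ∣ N) (h2 : ℓ = 2 → 3 ∣ N)
    (h3 : ℓ = 3 → 2 ∣ N) (hA : A.LiesOverPrime ℓ) {p : ℕ} (hp : p.Prime) (hpℓ : p ≠ ℓ)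
    (x : JZero N) (hx : reductionModL A N x = 0) : ∃ y : JZero N, p • y = x :=
  exists_nsmul_of_pairHyp hℓN h2 h3 hA p (pairHyp hℓN hA hp hpℓ) x hx

end Fermat.Agent.GR.W.K2.PairTop
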