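/-
GATE-R / S17, node GR-W-K2N-TR (helper54): the TRACE-AT-A-FIBRE lemma of helper68's K2-N plan
(board 4750), Mathlib-only, in AKLB / Dedekind form.

`A ⊆ B` Dedekind domains, `B` finite and torsion-free over `A`, `p` a maximal ideal of `A`,
`P` a prime of `B` over `p` which is UNRAMIFIED (`¬ P² ∣ pB`) of DEGREE ONE (`A/p → B/P` onto).

* `algebraMap_mk_intTrace` (TR0'): `pB = P * Q`, `P`, `Q` coprime, `w ∈ rad Q`
    ⟹ `Tr_{B/A}(w) mod p = w mod P`   (under `A/p ≅ B/P`);
* `intTrace_notMem` (TR0): if moreover `w ∉ P` then `Tr_{B/A}(w) ∉ p`;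
* `exists_coprime_factor`: an unramified `P` splits off, `rad Q = ⋂` of the other primes over `p`;
* `intTrace_notMem_of_forall_mem`: `w ∉ P`, `w ∈ P'` for every other prime `P' ⊇ pB`
    ⟹ `Tr_{B/A}(w) ∉ p`;
* `valuation_trace_eq_of_lt` (TR1): `K = Frac A`, `L = Frac B`, `p = (π)` principal; `u ∈ L` with a
  pole of exact order `m ≥ 0` at `P` and pole order `< m` at the other primes over `p`
    ⟹ `Tr_{L/K}(u)` has a pole of exact order `m` at `p`;
* `valuation_trace_eq` (TR1, pole form): the same for `m ≥ 1` and `u` regular at the other primes.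
-/
import Mathlib

set_option autoImplicit false
set_option linter.unusedSectionVars false

open Ideal

namespace Fermat.Agent.GR.W.K2.TraceFibre

/-! ### Two facts on traces over a field -/

/-- the trace of a nilpotent element of a finite-dimensional algebra over a field vanishes -/
theorem trace_eq_zero_of_isNilpotent {κ C : Type*} [Field κ] [CommRing C] [Algebra κ C]
    [Module.Finite κ C] {x : C} (hx : IsNilpotent x) : Algebra.trace κ C x = 0 := by
  rw [Algebra.trace_apply]
  refine (LinearMap.isNilpotent_trace_of_isNilpotent ?_).eq_zero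
  obtain ⟨n, hn⟩ := hx
  refine ⟨n, ?_⟩
  rw [← map_pow, hn, map_zero]

/-- the trace on a one-dimensional algebra is the inverse of the structure map -/
theorem algebraMap_trace_of_surjective {κ C : Type*} [Field κ] [CommRing C] [Nontrivial C]
    [Algebra κ C] (h : Function.Surjective (algebraMap κ C)) (x : C) :
    algebraMap κ C (Algebra.trace κ C x) = x := by
  obtain ⟨c, rfl⟩ := h x
  have hb : Function.Bijective (algebraMap κ C) := ⟨(algebraMap κ C).injective, h⟩
  have h1 : Module.finrank κ C = 1 := by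
    have e : κ ≃ₗ[κ] C := LinearEquiv.ofBijective (Algebra.linearMap κ C) hb
    rw [← e.finrank_eq, Module.finrank_self]
  rw [Algebra.trace_algebraMap, h1, one_smul]

/-! ### The trace modulo `p` -/

section Quot

variable (A : Type*) {B : Type*} [CommRing A] [IsDedekindDomain A] [CommRing B] [IsDedekindDomain B]
  [Algebra A B] [Module.IsTorsionFree A B] [Module.Finite A B]

attribute [local instance] Ideal.Quotient.field

/-- **(TR0')** `pB = P * Q` with `P`, `Q` coprime, `P` of degree one, `w ∈ rad Q`: the trace of `w`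
modulo `p` is the value of `w` at `P`. -/
theorem algebraMap_mk_intTrace {p : Ideal A} [p.IsMaximal] (P Q : Ideal B) [P.IsMaximal]
    [P.LiesOver p] (hPQ : IsCoprime P Q) (hP : P * Q = Ideal.map (algebraMap A B) p)
    (hdeg : Function.Surjective (algebraMap (A ⧸ p) (B ⧸ P)))
    (w : B) (hw : w ∈ Q.radical) :
    algebraMap (A ⧸ p) (B ⧸ P) (Ideal.Quotient.mk p (Algebra.intTrace A B w)) =
      Ideal.Quotient.mk P w := by
  let : Algebra (A ⧸ p) (B ⧸ Q) := Ideal.Quotient.algebraQuotientOfLEComap (by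
      rw [← Ideal.map_le_iff_le_comap, ← hP]
      exact Ideal.mul_le_right)
  have : IsScalarTower A (A ⧸ p) (B ⧸ Q) := .of_algebraMap_eq' rfl
  have : Module.Finite (A ⧸ p) (B ⧸ Q) :=
    Module.Finite.of_restrictScalars_finite A (A ⧸ p) (B ⧸ Q)
  have : Module.Finite (A ⧸ p) (B ⧸ P) :=
    Module.Finite.of_restrictScalars_finite A (A ⧸ p) (B ⧸ P)
  let e : (B ⧸ p.map (algebraMap A B)) ≃ₐ[A ⧸ p] ((B ⧸ P) × B ⧸ Q) :=
    { __ := (Ideal.quotEquivOfEq hP.symm).trans (Ideal.quotientMulEquivQuotientProd P Q hPQ),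
      commutes' := Quotient.ind fun _ ↦ rfl }
  have he : e (Ideal.Quotient.mk _ w) = (Ideal.Quotient.mk P w, Ideal.Quotient.mk Q w) := rfl
  rw [← Algebra.trace_quotient_eq_of_isDedekindDomain, ← Algebra.trace_eq_of_algEquiv e, he,
    Algebra.trace_prod_apply]
  have hnil : IsNilpotent (Ideal.Quotient.mk Q w) := by
    obtain ⟨n, hn⟩ := hw
    exact ⟨n, by rw [← map_pow, Ideal.Quotient.eq_zero_iff_mem]; exact hn⟩
  rw [trace_eq_zero_of_isNilpotent hnil, add_zero]
  exact algebraMap_trace_of_surjective hdeg _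

/-- **(TR0)** if moreover `w ∉ P`, the trace of `w` is a unit at `p`. -/
theorem intTrace_notMem {p : Ideal A} [p.IsMaximal] (P Q : Ideal B) [P.IsMaximal]
    [P.LiesOver p] (hPQ : IsCoprime P Q) (hP : P * Q = Ideal.map (algebraMap A B) p)
    (hdeg : Function.Surjective (algebraMap (A ⧸ p) (B ⧸ P)))
    (w : B) (hw : w ∈ Q.radical) (hwP : w ∉ P) : Algebra.intTrace A B w ∉ p := by
  intro h
  have h1 := algebraMap_mk_intTrace A P Q hPQ hP hdeg w hw
  rw [Ideal.Quotient.eq_zero_iff_mem.2 h, map_zero] at h1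
  exact hwP (Ideal.Quotient.eq_zero_iff_mem.1 h1.symm)

/-- an unramified prime `P` over `p` splits off: `pB = P * Q` with `Q` coprime to `P`, and an
element lying in all the other primes over `p` lies in the radical of `Q` -/
theorem exists_coprime_factor {p : Ideal A} (P : Ideal B) [P.IsMaximal]
    (hle : Ideal.map (algebraMap A B) p ≤ P)
    (hram : ¬ P ^ 2 ∣ Ideal.map (algebraMap A B) p) :
    ∃ Q : Ideal B, IsCoprime P Q ∧ P * Q = Ideal.map (algebraMap A B) p ∧
      ∀ w : B, (∀ P' : Ideal B, P'.IsPrime → Ideal.map (algebraMap A B) p ≤ P' → P' ≠ P →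
        w ∈ P') → w ∈ Q.radical := by
  obtain ⟨Q, hQ⟩ : P ∣ Ideal.map (algebraMap A B) p := Ideal.dvd_iff_le.mpr hle
  have hPQ : ¬ Q ≤ P := by
    intro h
    apply hram
    obtain ⟨Q', rfl⟩ := Ideal.dvd_iff_le.mpr h
    exact ⟨Q', by rw [hQ, pow_two, mul_assoc]⟩
  refine ⟨Q, ?_, hQ.symm, ?_⟩
  · rw [Ideal.isCoprime_iff_sup_eq]
    by_contra hne
    have h1 : P ⊔ Q = P := (‹P.IsMaximal›.eq_of_le hne le_sup_left).symm
    exact hPQ (h1 ▸ le_sup_right)
  · intro w hw
    rw [Ideal.radical_eq_sInf, Ideal.mem_sInf]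
    rintro P' ⟨hQP', hP'⟩
    refine hw P' hP' ?_ ?_
    · rw [hQ]
      exact Ideal.mul_le_right.trans hQP'
    · rintro rfl
      exact hPQ hQP'

/-- **(TR0), intrinsic form**: `P` over `p` unramified of degree one; `w ∉ P` lies in every other
prime of `B` over `p`. Then `Tr_{B/A}(w) ∉ p`. -/
theorem intTrace_notMem_of_forall_mem {p : Ideal A} [p.IsMaximal] (P : Ideal B) [P.IsMaximal]
    [P.LiesOver p] (hram : ¬ P ^ 2 ∣ Ideal.map (algebraMap A B) p)
    (hdeg : Function.Surjective (algebraMap (A ⧸ p) (B ⧸ P)))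
    (w : B) (hwP : w ∉ P)
    (hw : ∀ P' : Ideal B, P'.IsPrime → Ideal.map (algebraMap A B) p ≤ P' → P' ≠ P → w ∈ P') :
    Algebra.intTrace A B w ∉ p := by
  have hle : Ideal.map (algebraMap A B) p ≤ P :=
    Ideal.map_le_iff_le_comap.mpr (Ideal.LiesOver.over (p := p) (P := P)).le
  obtain ⟨Q, hPQ, hP, hrad⟩ := exists_coprime_factor A P hle hram
  exact intTrace_notMem A P Q hPQ hP hdeg w (hrad w hw) hwP

end Quot

/-! ### The valuation form -/

section Val

open IsDedekindDomain WithZero

variable {A B : Type*} [CommRing A] [IsDedekindDomain A] [CommRing B] [IsDedekindDomain B]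
  [Algebra A B] [Module.IsTorsionFree A B] [Module.Finite A B]
  (K L : Type*) [Field K] [Field L] [Algebra A K] [IsFractionRing A K] [Algebra K L] [Algebra A L]
  [IsScalarTower A K L] [Algebra B L] [IsScalarTower A B L] [IsIntegralClosure B A L]
  [FiniteDimensional K L] [IsFractionRing B L]

/-- the valuation of (the image of) an element of `A` at a prime of `B` -/
theorem valuation_algebraMap_base (Q : HeightOneSpectrum B) (a : A) :
    Q.valuation L (algebraMap A L a) = Q.intValuation (algebraMap A B a) := by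
  rw [IsScalarTower.algebraMap_apply A B L, HeightOneSpectrum.valuation_of_algebraMap]

/-- the trace is linear over the base ring `A` -/
theorem trace_algebraMap_mul (a : A) (z : L) :
    Algebra.trace K L (algebraMap A L a * z) = algebraMap A K a * Algebra.trace K L z := by
  rw [IsScalarTower.algebraMap_apply A K L, ← Algebra.smul_def, map_smul, smul_eq_mul]

/-- **(TR1)** `p = (π)` a principal prime of `A`, `P₀` a prime of `B` over `p`, unramified of degree
one. If `u ∈ L` has a pole of exact order `m` at `P₀` and pole order `< m` at every other prime of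
`B` over `p`, then `Tr_{L/K}(u)` has a pole of exact order `m` at `p`. -/
theorem valuation_trace_eq_of_lt (v : HeightOneSpectrum A) {π : A}
    (hπ : v.asIdeal = Ideal.span {π})
    (P₀ : HeightOneSpectrum B) [P₀.asIdeal.LiesOver v.asIdeal]
    (hram : ¬ P₀.asIdeal ^ 2 ∣ Ideal.map (algebraMap A B) v.asIdeal)
    (hdeg : Function.Surjective (algebraMap (A ⧸ v.asIdeal) (B ⧸ P₀.asIdeal)))
    (u : L) (m : ℕ) (hu : P₀.valuation L u = exp (m : ℤ))
    (hu' : ∀ Q : HeightOneSpectrum B, algebraMap A B π ∈ Q.asIdeal → Q ≠ P₀ →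
      Q.valuation L u < exp (m : ℤ)) :
    v.valuation K (Algebra.trace K L u) = exp (m : ℤ) := by
  classical
  have hπ0 : π ≠ 0 := by
    rintro rfl
    apply v.ne_bot
    rw [hπ, Ideal.span_singleton_eq_bot]
  have hπprime : Prime π := (Ideal.span_singleton_prime hπ0).mp (hπ ▸ v.isPrime)
  have hinj : Function.Injective (algebraMap A B) := FaithfulSMul.algebraMap_injective A B
  have hover : ∀ a : A, algebraMap A B a ∈ P₀.asIdeal ↔ a ∈ v.asIdeal := by
    intro a
    conv_rhs => rw [Ideal.LiesOver.over (p := v.asIdeal) (P := P₀.asIdeal)]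
    rw [Ideal.under_def, Ideal.mem_comap]
  have hmemv : ∀ a : A, a ∈ v.asIdeal ↔ π ∣ a := by
    intro a
    rw [hπ, Ideal.mem_span_singleton]
  -- the valuation of `π` at `P₀` is `exp (-1)`: `P₀` is unramified
  have hπP₀ : P₀.intValuation (algebraMap A B π) = exp (-1 : ℤ) := by
    apply le_antisymm
    · have h1 := (P₀.intValuation_le_pow_iff_mem (algebraMap A B π) 1).2
        (by rw [pow_one, hover, hmemv])
      simpa using h1
    · by_contra hlt
      rw [not_le] at hlt
      have h2 : P₀.intValuation (algebraMap A B π) ≤ exp (-((2 : ℕ) : ℤ)) := by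
        rw [← WithZero.lt_mul_exp_iff_le exp_ne_zero, ← exp_add]
        exact hlt
      rw [HeightOneSpectrum.intValuation_le_pow_iff_mem] at h2
      apply hram
      rw [Ideal.dvd_iff_le, hπ, Ideal.map_span, Set.image_singleton,
        Ideal.span_singleton_le_iff_mem]
      exact h2
  -- at the other primes over `p` it is `≤ exp (-1)`
  have hπQ : ∀ Q : HeightOneSpectrum B, algebraMap A B π ∈ Q.asIdeal →
      Q.intValuation (algebraMap A B π) ≤ exp (-1 : ℤ) := by
    intro Q hQ
    have h1 := (Q.intValuation_le_pow_iff_mem (algebraMap A B π) 1).2 (by rwa [pow_one])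
    simpa using h1
  -- `x = π ^ m * u`
  set x : L := algebraMap A L π ^ m * u with hx
  -- clear the denominator of `x` away from `p`
  have : Algebra.IsAlgebraic K L := Algebra.IsAlgebraic.of_finite K L
  have : IsLocalization (Algebra.algebraMapSubmonoid B (nonZeroDivisors A)) L :=
    IsIntegralClosure.isLocalization A K L B
  obtain ⟨⟨b₀, ⟨s, a₀, ha₀, rfl⟩⟩, hxs⟩ :=
    IsLocalization.surj (Algebra.algebraMapSubmonoid B (nonZeroDivisors A)) x
  obtain ⟨k, a, ha, rfl⟩ := WfDvdMonoid.max_power_factor (nonZeroDivisors.ne_zero ha₀)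
    hπprime.irreducible
  set y : L := algebraMap A L a * x with hy
  have hky : algebraMap A L π ^ k * y = algebraMap B L b₀ := by
    rw [← hxs, hy]
    simp only [← IsScalarTower.algebraMap_apply A B L, map_mul, map_pow]
    ring
  have hav : a ∉ v.asIdeal := fun h ↦ ha ((hmemv a).1 h)
  have haP₀ : P₀.intValuation (algebraMap A B a) = 1 := by
    rw [HeightOneSpectrum.intValuation_eq_one_iff, hover]
    exact hav
  -- the valuations of `y`
  have hyP₀ : P₀.valuation L y = 1 := by
    rw [hy, hx, map_mul, map_mul, map_pow, valuation_algebraMap_base, valuation_algebraMap_base,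
      haP₀, hπP₀, hu, one_mul, ← exp_nsmul, ← exp_add]
    simp
  have hyQ : ∀ Q : HeightOneSpectrum B, algebraMap A B π ∈ Q.asIdeal → Q ≠ P₀ →
      Q.valuation L y < 1 := by
    intro Q hQ hne
    rw [hy, hx, map_mul, map_mul, map_pow, valuation_algebraMap_base, valuation_algebraMap_base]
    have h1 : Q.intValuation (algebraMap A B π) ^ m ≤ exp (-(m : ℤ)) := by
      calc Q.intValuation (algebraMap A B π) ^ m ≤ exp (-1 : ℤ) ^ m :=
            pow_le_pow_left₀ zero_le (hπQ Q hQ) m
        _ = exp (-(m : ℤ)) := by rw [← exp_nsmul]; simp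
    have h2 := hu' Q hQ hne
    have h3 : Q.intValuation (algebraMap A B a) ≤ 1 := Q.intValuation_le_one _
    calc Q.intValuation (algebraMap A B a) * (Q.intValuation (algebraMap A B π) ^ m * Q.valuation L u)
        ≤ 1 * (exp (-(m : ℤ)) * Q.valuation L u) := by gcongr
      _ < 1 * (exp (-(m : ℤ)) * exp (m : ℤ)) := by
        rw [one_mul, one_mul]
        exact mul_lt_mul_of_pos_left h2 exp_pos
      _ = 1 := by rw [← exp_add]; simp
  have hyQ' : ∀ Q : HeightOneSpectrum B, algebraMap A B π ∉ Q.asIdeal → Q.valuation L y ≤ 1 := by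
    intro Q hQ
    have h1 : Q.valuation L (algebraMap A L π) = 1 := by
      rw [valuation_algebraMap_base, HeightOneSpectrum.intValuation_eq_one_iff]
      exact hQ
    have h2 := congrArg (Q.valuation L) hky
    rw [map_mul, map_pow, h1, one_pow, one_mul] at h2
    rw [h2]
    exact Q.valuation_le_one b₀
  -- `y` is integral
  obtain ⟨w, hw⟩ : y ∈ (algebraMap B L).range := by
    apply HeightOneSpectrum.mem_integers_of_valuation_le_one
    intro Q
    by_cases hQ : algebraMap A B π ∈ Q.asIdeal
    · by_cases hne : Q = P₀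
      · rw [hne, hyP₀]
      · exact (hyQ Q hQ hne).le
    · exact hyQ' Q hQ
  have hwP₀ : w ∉ P₀.asIdeal := by
    intro hmem
    have h := (HeightOneSpectrum.valuation_lt_one_iff_mem (K := L) P₀ w).2 hmem
    change P₀.valuation L (algebraMap B L w) < 1 at h
    rw [hw, hyP₀] at h
    exact lt_irrefl _ h
  have hwQ : ∀ P' : Ideal B, P'.IsPrime → Ideal.map (algebraMap A B) v.asIdeal ≤ P' →
      P' ≠ P₀.asIdeal → w ∈ P' := by
    intro P' hP' hle hne
    have hπP' : algebraMap A B π ∈ P' :=
      hle (Ideal.mem_map_of_mem _ ((hmemv π).2 dvd_rfl))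
    have hbot : P' ≠ ⊥ := by
      rintro rfl
      exact hπ0 (hinj (by rw [map_zero]; exact (Ideal.mem_bot.1 hπP')))
    have h1 := hyQ ⟨P', hP', hbot⟩ hπP' (fun h ↦ hne (congrArg HeightOneSpectrum.asIdeal h))
    rw [← hw] at h1
    exact (HeightOneSpectrum.valuation_lt_one_iff_mem (K := L) _ w).1 h1
  have : v.asIdeal.IsMaximal := v.isMaximal
  have : P₀.asIdeal.IsMaximal := P₀.isMaximal
  have htr := intTrace_notMem_of_forall_mem A P₀.asIdeal hram hdeg w hwP₀ hwQ
  -- conclude
  have h1 : algebraMap A K (Algebra.intTrace A B w) =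
      algebraMap A K a * (algebraMap A K π ^ m * Algebra.trace K L u) := by
    rw [Algebra.algebraMap_intTrace (L := L), hw, hy, hx, trace_algebraMap_mul, ← map_pow,
      trace_algebraMap_mul, map_pow]
  have h2 := congrArg (v.valuation K) h1
  rw [map_mul, map_mul, map_pow, HeightOneSpectrum.valuation_of_algebraMap,
    HeightOneSpectrum.valuation_of_algebraMap, HeightOneSpectrum.valuation_of_algebraMap,
    HeightOneSpectrum.intValuation_eq_one_iff.2 htr, HeightOneSpectrum.intValuation_eq_one_iff.2 hav,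
    v.intValuation_singleton hπ0 hπ, one_mul, ← exp_nsmul] at h2
  calc v.valuation K (Algebra.trace K L u)
      = exp (m : ℤ) * (exp (m • (-1 : ℤ)) * v.valuation K (Algebra.trace K L u)) := by
        rw [← mul_assoc, ← exp_add]; simp
    _ = exp (m : ℤ) := by rw [← h2, mul_one]

/-- **(TR1), pole form**: `u` has a pole of exact order `m ≥ 1` at `P₀` and is regular at the other
primes of `B` over `p = (π)`; then `Tr_{L/K}(u)` has a pole of exact order `m` at `p`. -/
theorem valuation_trace_eq (v : HeightOneSpectrum A) {π : A}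
    (hπ : v.asIdeal = Ideal.span {π})
    (P₀ : HeightOneSpectrum B) [P₀.asIdeal.LiesOver v.asIdeal]
    (hram : ¬ P₀.asIdeal ^ 2 ∣ Ideal.map (algebraMap A B) v.asIdeal)
    (hdeg : Function.Surjective (algebraMap (A ⧸ v.asIdeal) (B ⧸ P₀.asIdeal)))
    (u : L) {m : ℕ} (hm : 1 ≤ m) (hu : P₀.valuation L u = exp (m : ℤ))
    (hu' : ∀ Q : HeightOneSpectrum B, algebraMap A B π ∈ Q.asIdeal → Q ≠ P₀ →
      Q.valuation L u ≤ 1) :
    v.valuation K (Algebra.trace K L u) = exp (m : ℤ) := by
  refine valuation_trace_eq_of_lt K L v hπ P₀ hram hdeg u m hu fun Q hQ hne ↦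
    (hu' Q hQ hne).trans_lt ?_
  rw [← exp_zero, exp_lt_exp]
  exact_mod_cast hm

end Val

end Fermat.Agent.GR.W.K2.TraceFibre
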